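import Fermat.Agent.HallSubgroups.Existence
import Fermat.Agent.Root.SummaryBurnsideSolvable

/-!
# Hall's criterion

Wielandt: a group with three solvable subgroups of pairwise coprime indices is solvable. With
Burnside's theorem for two primes this gives Hall's criterion: a group having for each prime `p` a
subgroup whose index is the `p`-part of the order is solvable.
-/

set_option autoImplicit false
set_option linter.style.haveILetI false

noncomputable section

namespace FA.HallSubgroups

open Subgroup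
open scoped Pointwise

universe u

variable {G : Type*} [Group G] [Finite G]

/-- Subgroups of coprime index multiply to the whole group. -/
theorem exists_mul_of_coprime {H K : Subgroup G} (h : H.index.Coprime K.index) (y : G) :
    ∃ x ∈ H, x⁻¹ * y ∈ K := by
  have h1 : K.index ∣ K.relIndex H * H.index := by
    rw [← Subgroup.inf_relIndex_right, Subgroup.relIndex_mul_index inf_le_right]
    exact Subgroup.index_dvd_of_le inf_le_left
  have h2 : K.index ∣ K.relIndex H := h.symm.dvd_of_dvd_mul_right h1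
  have hstab : MulAction.stabilizer H ((1 : G) : G ⧸ K) = K.subgroupOf H := by
    ext x
    rw [MulAction.mem_stabilizer_iff, Subgroup.mem_subgroupOf]
    change ((x.1 * 1 : G) : G ⧸ K) = ((1 : G) : G ⧸ K) ↔ _
    rw [mul_one, QuotientGroup.eq, mul_one, inv_mem_iff]
  have horb : MulAction.orbit H ((1 : G) : G ⧸ K) = Set.univ := by
    refine Set.eq_of_subset_of_ncard_le (Set.subset_univ _) ?_ (Set.toFinite _)
    rw [Set.ncard_univ, ← MulAction.index_stabilizer, hstab]
    exact Nat.le_of_dvd (Nat.pos_of_ne_zero Subgroup.index_ne_zero_of_finite) h2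
  obtain ⟨x, hx⟩ : ((y : G) : G ⧸ K) ∈ MulAction.orbit H ((1 : G) : G ⧸ K) :=
    horb ▸ Set.mem_univ _
  refine ⟨x.1, x.2, QuotientGroup.eq.1 ?_⟩
  rw [← mul_one x.1]
  exact hx

theorem wielandt_aux (n : ℕ) : ∀ (G : Type u) [Group G] [Finite G], Nat.card G = n →
    ∀ H₁ H₂ H₃ : Subgroup G, Group.IsSolvable H₁ → Group.IsSolvable H₂ → Group.IsSolvable H₃ →
      H₁.index.Coprime H₂.index → H₁.index.Coprime H₃.index → H₂.index.Coprime H₃.index →
        Group.IsSolvable G := by
  induction n using Nat.strong_induction_on with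
  | _ n ih =>
  intro G _ _ hn H₁ H₂ H₃ s₁ s₂ s₃ c₁₂ c₁₃ c₂₃
  rcases subsingleton_or_nontrivial H₁ with hH | hH
  · have h : H₂.index = 1 := Nat.eq_one_of_dvd_coprimes c₁₂ (by
      rw [Subgroup.eq_bot_of_subsingleton H₁, Subgroup.index_bot]
      exact H₂.index_dvd_card) dvd_rfl
    rw [Subgroup.index_eq_one] at h
    subst h
    exact Group.isSolvable_of_surjective (f := (⊤ : Subgroup G).subtype)
      fun x => ⟨⟨x, trivial⟩, rfl⟩
  obtain ⟨p, hp, N, m, hN, -, hm0, hm⟩ := exists_normal_pgroup (G := H₁)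
  haveI := Fact.mk hp
  obtain ⟨H, sH, hc, hpH⟩ : ∃ H : Subgroup G, Group.IsSolvable H ∧
      H₁.index.Coprime H.index ∧ ¬ p ∣ H.index := by
    by_cases h : p ∣ H₂.index
    · exact ⟨H₃, s₃, c₁₃, fun h3 => hp.ne_one (Nat.eq_one_of_dvd_coprimes c₂₃ h h3)⟩
    · exact ⟨H₂, s₂, c₁₂, h⟩
  -- a conjugate of `H` contains `N`
  set N' := N.map H₁.subtype
  have hN' : IsPGroup p N' := (IsPGroup.of_card hm).map H₁.subtype
  obtain ⟨q, hq⟩ := hN'.nonempty_fixed_point_of_prime_not_dvd_card (G ⧸ H)
    (by rwa [← Subgroup.index])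
  obtain ⟨g, rfl⟩ := QuotientGroup.mk_surjective q
  set K := H.map (MulAut.conj g).toMonoidHom
  haveI : Group.IsSolvable K := Group.isSolvable_of_surjective
    (f := (MulAut.conj g).toMonoidHom.subgroupMap H) (MonoidHom.subgroupMap_surjective _ _)
  have hKi : K.index = H.index := Subgroup.index_map_of_bijective (MulAut.conj g).bijective H
  have hNK : N' ≤ K := fun x hx => by
    have h := hq ⟨x, hx⟩
    change ((x * g : G) : G ⧸ H) = ((g : G) : G ⧸ H) at h
    rw [QuotientGroup.eq] at h
    refine ⟨g⁻¹ * x * g, ?_, by simp [mul_assoc]⟩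
    simpa [mul_assoc] using H.inv_mem h
  set M := Subgroup.normalClosure (N' : Set G)
  have hM : M ≤ K := by
    refine (Subgroup.closure_le K).2 fun y hy => ?_
    obtain ⟨z, hz, hzy⟩ := Group.mem_conjugatesOfSet_iff.1 hy
    obtain ⟨c, rfl⟩ := isConj_iff.1 hzy
    obtain ⟨x, hx, hxc⟩ := exists_mul_of_coprime (hKi ▸ hc : H₁.index.Coprime K.index) c⁻¹
    obtain ⟨w, hw, rfl⟩ := hz
    have h1 : x⁻¹ * (w : G) * x ∈ K := hNK ⟨(⟨x, hx⟩ : H₁)⁻¹ * w * ⟨x, hx⟩,
      by simpa using hN.conj_mem w hw (⟨x, hx⟩ : H₁)⁻¹, by simp⟩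
    have h2 := K.mul_mem (K.mul_mem (K.inv_mem hxc) h1) hxc
    simpa [mul_assoc] using h2
  haveI : Group.IsSolvable M := Group.isSolvable_of_isSolvable_injective
    (f := Subgroup.inclusion hM) (Subgroup.inclusion_injective hM)
  have hM0 : M ≠ ⊥ := fun h => by
    have h1 : N' ≤ M := Subgroup.subset_normalClosure
    rw [h, le_bot_iff, Subgroup.map_eq_bot_iff_of_injective _ H₁.subtype_injective] at h1
    rw [h1, Subgroup.card_bot] at hm
    exact (Nat.one_lt_pow hm0 hp.one_lt).ne hm
  set π := QuotientGroup.mk' M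
  have hlt : Nat.card (G ⧸ M) < n := by
    rw [← hn, Nat.card_congr (Subgroup.groupEquivQuotientProdSubgroup (s := M)), Nat.card_prod]
    exact lt_mul_of_one_lt_right Nat.card_pos (Subgroup.one_lt_card_iff_ne_bot M |>.2 hM0)
  have hmap : ∀ V : Subgroup G, Group.IsSolvable V → Group.IsSolvable (V.map π) := fun V hV =>
    Group.isSolvable_of_surjective (f := π.subgroupMap V) (MonoidHom.subgroupMap_surjective _ _)
  have hdvd := fun V : Subgroup G => V.index_map_dvd (QuotientGroup.mk'_surjective M)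
  haveI : Group.IsSolvable (G ⧸ M) := ih _ hlt (G ⧸ M) rfl (H₁.map π) (H₂.map π) (H₃.map π)
    (hmap _ s₁) (hmap _ s₂) (hmap _ s₃)
    (Nat.Coprime.of_dvd (hdvd H₁) (hdvd H₂) c₁₂) (Nat.Coprime.of_dvd (hdvd H₁) (hdvd H₃) c₁₃)
    (Nat.Coprime.of_dvd (hdvd H₂) (hdvd H₃) c₂₃)
  exact Group.isSolvable_of_ker_le_range M.subtype π (by
    rw [QuotientGroup.ker_mk', Subgroup.range_subtype])

/-- **Wielandt's theorem.** -/
theorem isSolvable_of_three {H₁ H₂ H₃ : Subgroup G} (s₁ : Group.IsSolvable H₁)
    (s₂ : Group.IsSolvable H₂) (s₃ : Group.IsSolvable H₃) (c₁₂ : H₁.index.Coprime H₂.index)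
    (c₁₃ : H₁.index.Coprime H₃.index) (c₂₃ : H₂.index.Coprime H₃.index) : Group.IsSolvable G :=
  wielandt_aux _ G rfl H₁ H₂ H₃ s₁ s₂ s₃ c₁₂ c₁₃ c₂₃

theorem criterion_aux (n : ℕ) : ∀ (G : Type u) [Group G] [Finite G], Nat.card G = n →
    (∀ p : ℕ, p.Prime → ∃ H : Subgroup G, H.index = p ^ n.factorization p) →
      Group.IsSolvable G := by
  induction n using Nat.strong_induction_on with
  | _ n ih =>
  intro G _ _ hn hex
  by_contra hns
  have h3 := FA.Summary.nonsolvable_three_primes G hns
  rw [hn] at h3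
  obtain ⟨s, hs, hcard⟩ := Finset.exists_subset_card_eq h3
  obtain ⟨p, q, r, hpq, hpr, hqr, rfl⟩ := Finset.card_eq_three.1 hcard
  have hn0 : n ≠ 0 := hn ▸ Nat.card_pos.ne'
  have key : ∀ t ∈ n.primeFactors, ∀ H : Subgroup G, H.index = t ^ n.factorization t →
      Group.IsSolvable H := fun t ht H hH => by
    have htp := Nat.prime_of_mem_primeFactors ht
    have hf0 : n.factorization t ≠ 0 :=
      (htp.factorization_pos_of_dvd hn0 (Nat.dvd_of_mem_primeFactors ht)).ne'
    have hmul : Nat.card H * t ^ n.factorization t = n := by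
      rw [← hH, H.card_mul_index, hn]
    have hlt : Nat.card H < n := by
      calc Nat.card H = Nat.card H * 1 := (mul_one _).symm
        _ < Nat.card H * t ^ n.factorization t :=
            Nat.mul_lt_mul_of_pos_left (Nat.one_lt_pow hf0 htp.one_lt) Nat.card_pos
        _ = n := hmul
    refine ih _ hlt H rfl fun l hl => ?_
    by_cases hlt' : l = t
    · subst hlt'
      refine ⟨⊤, ?_⟩
      have h := congrArg (fun k => k.factorization l) hmul
      simp only [Nat.factorization_mul Nat.card_pos.ne' (pow_ne_zero _ hl.ne_zero),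
        hl.factorization_pow, Finsupp.add_apply, Finsupp.single_eq_same] at h
      rw [Subgroup.index_top, show (Nat.card H).factorization l = 0 by omega, pow_zero]
    · obtain ⟨Kl, hKl⟩ := hex l hl
      have hco : (l ^ n.factorization l).Coprime (t ^ n.factorization t) :=
        Nat.coprime_pow_primes _ _ hl htp hlt'
      refine ⟨Kl.subgroupOf H, ?_⟩
      have hfac : (Nat.card H).factorization l = n.factorization l := by
        have h := congrArg (fun k => k.factorization l) hmul
        simp only [Nat.factorization_mul Nat.card_pos.ne' (pow_ne_zero _ htp.ne_zero),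
          htp.factorization_pow, Finsupp.add_apply, Finsupp.single_eq_of_ne hlt', add_zero] at h
        exact h
      rw [hfac]
      have hle : Kl.relIndex H ≤ l ^ n.factorization l := by
        rw [← hKl, ← Subgroup.relIndex_top_right (H := Kl)]
        exact Subgroup.relIndex_le_of_le_right le_top
          (by rw [Subgroup.relIndex_top_right]; exact Subgroup.index_ne_zero_of_finite)
      refine le_antisymm hle (Nat.le_of_dvd
        (Nat.pos_of_ne_zero Subgroup.index_ne_zero_of_finite) ?_)
      refine hco.dvd_of_dvd_mul_right ?_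
      change _ ∣ Kl.relIndex H * _
      rw [← hH, ← Subgroup.inf_relIndex_right, Subgroup.relIndex_mul_index inf_le_right, ← hKl]
      exact Subgroup.index_dvd_of_le inf_le_left
  obtain ⟨Hp, hHp⟩ := hex p (Nat.prime_of_mem_primeFactors (hs (by simp)))
  obtain ⟨Hq, hHq⟩ := hex q (Nat.prime_of_mem_primeFactors (hs (by simp)))
  obtain ⟨Hr, hHr⟩ := hex r (Nat.prime_of_mem_primeFactors (hs (by simp)))
  refine hns (isSolvable_of_three (key p (hs (by simp)) Hp hHp) (key q (hs (by simp)) Hq hHq)
    (key r (hs (by simp)) Hr hHr) ?_ ?_ ?_)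
  · rw [hHp, hHq]
    exact Nat.coprime_pow_primes _ _ (Nat.prime_of_mem_primeFactors (hs (by simp)))
      (Nat.prime_of_mem_primeFactors (hs (by simp))) hpq
  · rw [hHp, hHr]
    exact Nat.coprime_pow_primes _ _ (Nat.prime_of_mem_primeFactors (hs (by simp)))
      (Nat.prime_of_mem_primeFactors (hs (by simp))) hpr
  · rw [hHq, hHr]
    exact Nat.coprime_pow_primes _ _ (Nat.prime_of_mem_primeFactors (hs (by simp)))
      (Nat.prime_of_mem_primeFactors (hs (by simp))) hqr

/-- **Hall's criterion.** -/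
theorem isSolvable_iff_forall_exists :
    Group.IsSolvable G ↔
      ∀ p : ℕ, p.Prime → ∃ H : Subgroup G, H.index = p ^ (Nat.card G).factorization p := by
  refine ⟨fun _ p hp => ?_, criterion_aux _ G rfl⟩
  have hG : Nat.card G ≠ 0 := Nat.card_pos.ne'
  have hab := Nat.ordProj_mul_ordCompl_eq_self (Nat.card G) p
  obtain ⟨H, hH⟩ := exists_hall (a := Nat.card G / p ^ (Nat.card G).factorization p)
    (b := p ^ (Nat.card G).factorization p) (by rw [mul_comm]; exact hab)
    (Nat.Coprime.pow_right _ (Nat.coprime_ordCompl hp hG).symm)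
  refine ⟨H, ?_⟩
  have h := H.card_mul_index
  rw [hH] at h
  refine Nat.eq_of_mul_eq_mul_left ?_ (h.trans (by rw [mul_comm]; exact hab.symm))
  exact Nat.ordCompl_pos p hG

end FA.HallSubgroups

end
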