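import Mathlib.GroupTheory.SchurZassenhaus
import Mathlib.GroupTheory.Solvable
import Mathlib.GroupTheory.Sylow

/-!
# Hall's theorem for solvable groups

For coprime `a`, `b` a solvable group of order `a b` has a subgroup of order `a`, and each such
contains a conjugate of every subgroup of order dividing `a`. The induction is through a normal
abelian `p`-subgroup, and uses that complements of an abelian normal subgroup of coprime index are
conjugate.
-/

set_option autoImplicit false
set_option linter.style.haveILetI false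

noncomputable section

namespace FA.HallSubgroups

open Subgroup
open scoped Pointwise commutatorElement

universe u

variable {G : Type*} [Group G]

/-- A complement of an abelian normal subgroup of coprime index is a stabiliser. -/
theorem exists_eq_stabilizer [Finite G] {N H : Subgroup G} [N.Normal] [IsMulCommutative N]
    (h : IsComplement' H N) (hco : (Nat.card N).Coprime N.index) :
    ∃ α : N.QuotientDiff, H = MulAction.stabilizer G α := by
  refine ⟨Quotient.mk'' ⟨(H : Set G), h⟩, Subgroup.eq_of_le_of_card_ge (fun x hx => ?_) ?_⟩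
  · exact congrArg Quotient.mk'' (Subtype.ext (op_smul_coe_set (H.inv_mem hx)))
  · refine le_of_mul_le_mul_left ?_ (Nat.card_pos (α := N))
    rw [(isComplement'_stabilizer_of_coprime hco).card_mul_card, mul_comm, h.card_mul_card]

/-- **Complements of an abelian normal subgroup of coprime index are conjugate.** -/
theorem exists_conj_complement [Finite G] {N H₁ H₂ : Subgroup G} [N.Normal] [IsMulCommutative N]
    (h₁ : IsComplement' H₁ N) (h₂ : IsComplement' H₂ N) (hco : (Nat.card N).Coprime N.index) :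
    ∃ g ∈ N, H₁.map (MulAut.conj g).toMonoidHom = H₂ := by
  obtain ⟨α, rfl⟩ := exists_eq_stabilizer h₁ hco
  obtain ⟨β, rfl⟩ := exists_eq_stabilizer h₂ hco
  obtain ⟨x, rfl⟩ := exists_smul_eq hco α β
  exact ⟨x.1, x.2, (MulAction.stabilizer_smul_eq_stabilizer_map_conj (x : G) α).symm⟩

/-- **A solvable group has a normal abelian `p`-subgroup.** -/
theorem exists_normal_pgroup [Finite G] [Nontrivial G] [Group.IsSolvable G] :
    ∃ (p : ℕ) (_ : p.Prime) (N : Subgroup G) (m : ℕ), N.Normal ∧ IsMulCommutative N ∧ m ≠ 0 ∧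
      Nat.card N = p ^ m := by
  classical
  have hs : ∃ k, derivedSeries G k = ⊥ := Group.IsSolvable.solvable
  obtain ⟨k, hk⟩ : ∃ k, Nat.find hs = k + 1 := Nat.exists_eq_succ_of_ne_zero fun h0 => by
    have := Nat.find_spec hs
    rw [h0, derivedSeries_zero] at this
    exact top_ne_bot this
  set A := derivedSeries G k
  have hA : A.Normal := derivedSeries_normal G k
  have hA0 : A ≠ ⊥ := Nat.find_min hs (by omega)
  have hcomm : ∀ x ∈ A, ∀ y ∈ A, x * y = y * x := fun x hx y hy => by
    have h : ⁅x, y⁆ ∈ derivedSeries G (k + 1) := by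
      rw [derivedSeries_succ]
      exact commutator_mem_commutator hx hy
    rw [← hk, Nat.find_spec hs, Subgroup.mem_bot, commutatorElement_eq_one_iff_mul_comm] at h
    exact h
  obtain ⟨p, hp, hpA⟩ := Nat.exists_prime_and_dvd (n := Nat.card A) fun h1 =>
    hA0 (Subgroup.card_eq_one.1 h1)
  haveI := Fact.mk hp
  let N : Subgroup G :=
    { carrier := {x | x ∈ A ∧ ∃ j, x ^ p ^ j = 1}
      one_mem' := ⟨A.one_mem, 0, one_pow _⟩
      mul_mem' := by
        rintro x y ⟨hx, i, hi⟩ ⟨hy, j, hj⟩
        refine ⟨A.mul_mem hx hy, i + j, ?_⟩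
        rw [Commute.mul_pow (hcomm x hx y hy), pow_add, pow_mul, hi, one_pow, mul_comm, pow_mul,
          hj, one_pow, mul_one]
      inv_mem' := by
        rintro x ⟨hx, i, hi⟩
        exact ⟨A.inv_mem hx, i, by rw [inv_pow, hi, inv_one]⟩ }
  have hN : IsPGroup p N := fun x => by
    obtain ⟨j, hj⟩ := x.2.2
    exact ⟨j, Subtype.ext hj⟩
  obtain ⟨m, hm⟩ := IsPGroup.iff_card.1 hN
  refine ⟨p, hp, N, m, ⟨?_⟩, ⟨⟨fun x y => Subtype.ext (hcomm x.1 x.2.1 y.1 y.2.1)⟩⟩, ?_, hm⟩
  · rintro x ⟨hx, j, hj⟩ g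
    exact ⟨hA.conj_mem x hx g, j, by rw [conj_pow, hj, mul_one, mul_inv_cancel]⟩
  · rintro rfl
    obtain ⟨x, hx⟩ := exists_prime_orderOf_dvd_card' p hpA
    have hxN : x.1 ∈ N := ⟨x.2, 1, by
      rw [pow_one, ← hx]
      exact congrArg Subtype.val (pow_orderOf_eq_one x)⟩
    rw [Subgroup.card_eq_one.1 (hm.trans (pow_zero p)), Subgroup.mem_bot] at hxN
    rw [← Subgroup.orderOf_coe, hxN, orderOf_one] at hx
    exact hp.ne_one hx.symm

theorem card_comap_mk [Finite G] {N : Subgroup G} [N.Normal] (V : Subgroup (G ⧸ N)) :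
    Nat.card (V.comap (QuotientGroup.mk' N)) = Nat.card N * Nat.card V := by
  refine Nat.eq_of_mul_eq_mul_right (Nat.pos_of_ne_zero (Subgroup.index_ne_zero_of_finite (H := V)))
    ?_
  conv_lhs => rw [← V.index_comap_of_surjective (QuotientGroup.mk'_surjective N),
    Subgroup.card_mul_index]
  rw [mul_assoc, Subgroup.card_mul_index, ← N.card_mul_index, Subgroup.index]

theorem card_map_mk_eq [Finite G] {N V : Subgroup G} [N.Normal]
    (h : (Nat.card V).Coprime (Nat.card N)) :
    Nat.card (V.map (QuotientGroup.mk' N)) = Nat.card V := by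
  have hinj : Function.Injective ((QuotientGroup.mk' N).comp V.subtype) := by
    refine (injective_iff_map_eq_one _).2 fun x hx => Subtype.ext ?_
    have hxN : x.1 ∈ N := (QuotientGroup.eq_one_iff x.1).1 hx
    exact (Subgroup.mem_bot).1 ((disjoint_of_coprime_natCard h).le_bot ⟨x.2, hxN⟩)
  rw [← V.range_subtype, ← MonoidHom.range_comp, V.range_subtype]
  exact Nat.card_congr (MonoidHom.ofInjective hinj).toEquiv.symm

theorem hall_aux (n : ℕ) : ∀ (G : Type u) [Group G] [Finite G] [Group.IsSolvable G],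
    Nat.card G = n → ∀ a b : ℕ, a * b = n → a.Coprime b →
      (∃ H : Subgroup G, Nat.card H = a) ∧ ∀ H U : Subgroup G, Nat.card H = a → Nat.card U ∣ a →
        ∃ g : G, U.map (MulAut.conj g).toMonoidHom ≤ H := by
  induction n using Nat.strong_induction_on with
  | _ n ih =>
  intro G _ _ _ hn a b hab hco
  rcases subsingleton_or_nontrivial G with hG | hG
  · have h1 : Nat.card G = 1 := Nat.card_unique
    refine ⟨⟨⊥, ?_⟩, fun H U _ _ => ⟨1, fun x _ => Subsingleton.elim 1 x ▸ H.one_mem⟩⟩
    rw [Subgroup.card_bot, (mul_eq_one.1 (hab.trans (hn.symm.trans h1))).1]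
  obtain ⟨p, hp, N, m, hN, hNc, hm0, hm⟩ := exists_normal_pgroup (G := G)
  set π := QuotientGroup.mk' N
  have hsolQ : Group.IsSolvable (G ⧸ N) :=
    Group.isSolvable_of_surjective (QuotientGroup.mk'_surjective N)
  have hQ : Nat.card N * Nat.card (G ⧸ N) = n := hn ▸ N.card_mul_index
  have hlt : Nat.card (G ⧸ N) < n := by
    rw [← hQ, hm]
    exact lt_mul_of_one_lt_left Nat.card_pos (Nat.one_lt_pow hm0 hp.one_lt)
  have hconj : ∀ (g : G) (U : Subgroup G), (U.map (MulAut.conj g).toMonoidHom).map π =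
      (U.map π).map (MulAut.conj (π g)).toMonoidHom := fun g U => by
    rw [Subgroup.map_map, Subgroup.map_map]
    rfl
  have hcopow : ∀ {c : ℕ}, ¬ p ∣ c → (p ^ m).Coprime c := fun hc =>
    Nat.Coprime.pow_left _ (hp.coprime_iff_not_dvd.2 hc)
  by_cases hpa : p ∣ a
  · -- `N` lies in every such subgroup
    have hpb : ¬ p ∣ b := fun h => hp.ne_one (Nat.eq_one_of_dvd_coprimes hco hpa h)
    obtain ⟨a', rfl⟩ : p ^ m ∣ a :=
      (hcopow hpb).dvd_of_dvd_mul_right (hab ▸ hQ ▸ hm ▸ Dvd.intro _ rfl)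
    have hQ' : Nat.card (G ⧸ N) = a' * b := by
      rw [← hab, hm, mul_assoc] at hQ
      exact Nat.eq_of_mul_eq_mul_left (pow_pos hp.pos m) hQ
    have hco' : a'.Coprime b := Nat.Coprime.coprime_mul_left hco
    obtain ⟨⟨H', hH'⟩, hall⟩ := ih _ hlt (G ⧸ N) rfl a' b hQ'.symm hco'
    refine ⟨⟨H'.comap π, by rw [card_comap_mk, hm, hH']⟩, fun H U hH hU => ?_⟩
    have hdvd : ∀ V : Subgroup G, Nat.card V ∣ p ^ m * a' → Nat.card (V.map π) ∣ a' := fun V hV =>
      (Nat.Coprime.of_dvd_left ((Subgroup.card_map_dvd V π).trans hV) hco).dvd_of_dvd_mul_right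
        (hQ' ▸ Subgroup.card_subgroup_dvd_card _)
    have hge : Nat.card ((H.map π).comap π) ≤ Nat.card H := by
      rw [card_comap_mk, hm, hH]
      exact Nat.mul_le_mul_left _ (Nat.le_of_dvd (Nat.pos_of_ne_zero fun h0 => by
        rw [h0, mul_zero] at hH
        exact Nat.card_pos.ne' hH) (hdvd H hH.dvd))
    have hHN : H = (H.map π).comap π := Subgroup.eq_of_le_of_card_ge (H.le_comap_map π) hge
    have hH' : Nat.card (H.map π) = a' := by
      have h := card_comap_mk (H.map π)
      rw [show (H.map π).comap π = H from hHN.symm, hH, hm] at h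
      exact (Nat.eq_of_mul_eq_mul_left (pow_pos hp.pos m) h).symm
    obtain ⟨q, hq⟩ := hall (H.map π) (U.map π) hH' (hdvd U hU)
    obtain ⟨g, rfl⟩ := QuotientGroup.mk'_surjective N q
    refine ⟨g, ?_⟩
    rw [hHN, ← Subgroup.map_le_iff_le_comap, hconj]
    exact hq
  · -- `N` is avoided
    obtain ⟨b', rfl⟩ : p ^ m ∣ b :=
      (hcopow hpa).dvd_of_dvd_mul_left (hab ▸ hQ ▸ hm ▸ Dvd.intro _ rfl)
    have hQ' : Nat.card (G ⧸ N) = a * b' := by
      rw [← hab, hm, mul_left_comm] at hQ
      exact Nat.eq_of_mul_eq_mul_left (pow_pos hp.pos m) hQ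
    have hco' : a.Coprime b' := Nat.Coprime.coprime_mul_left_right hco
    obtain ⟨⟨H', hH'⟩, hall⟩ := ih _ hlt (G ⧸ N) rfl a b' hQ'.symm hco'
    refine ⟨?_, fun H U hH hU => ?_⟩
    · -- Schur–Zassenhaus in the preimage
      set K := H'.comap π
      have hK : Nat.card K = p ^ m * a := by rw [card_comap_mk, hm, hH']
      have hle : N ≤ K := fun x hx => by
        show π x ∈ H'
        rw [show π x = 1 from (QuotientGroup.eq_one_iff x).2 hx]
        exact H'.one_mem
      have hNK : Nat.card (N.subgroupOf K) = p ^ m := by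
        rw [Nat.card_congr (Subgroup.subgroupOfEquivOfLe hle).toEquiv, hm]
      have hidx : (N.subgroupOf K).index = a := by
        have h := (N.subgroupOf K).card_mul_index
        rw [hNK, hK] at h
        exact Nat.eq_of_mul_eq_mul_left (pow_pos hp.pos m) h
      obtain ⟨C, hC⟩ := Subgroup.exists_right_complement'_of_coprime (N := N.subgroupOf K)
        (by rw [hNK, hidx]; exact hcopow hpa)
      refine ⟨C.map K.subtype, ?_⟩
      rw [Subgroup.card_map_of_injective K.subtype_injective, ← hidx]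
      exact (hC.symm.index_eq_card).symm
    · have hcard : ∀ V : Subgroup G, Nat.card V ∣ a → Nat.card (V.map π) = Nat.card V := fun V hV =>
        card_map_mk_eq (hm ▸ Nat.Coprime.of_dvd_left hV (hcopow hpa).symm)
      obtain ⟨q, hq⟩ := hall (H.map π) (U.map π) ((hcard H hH.dvd).trans hH)
        (by rw [hcard U hU]; exact hU)
      obtain ⟨g, rfl⟩ := QuotientGroup.mk'_surjective N q
      set U₁ := U.map (MulAut.conj g).toMonoidHom
      have hU₁ : Nat.card U₁ = Nat.card U :=
        Subgroup.card_map_of_injective (MulAut.conj g).injective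
      have hU₁H : U₁.map π ≤ H.map π := (hconj g U).le.trans hq
      set M := (U₁.map π).comap π
      have hNM : N ≤ M := fun x hx => by
        show π x ∈ U₁.map π
        rw [show π x = 1 from (QuotientGroup.eq_one_iff x).2 hx]
        exact one_mem _
      have hM : Nat.card M = p ^ m * Nat.card U := by
        rw [card_comap_mk, hm, hcard U₁ (hU₁ ▸ hU), hU₁]
      have hMH : Nat.card (M ⊓ H : Subgroup G) = Nat.card U := by
        rw [← hcard (M ⊓ H) ((Subgroup.card_dvd_of_le inf_le_right).trans hH.dvd), ← hU₁,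
          ← hcard U₁ (hU₁ ▸ hU), show (M ⊓ H).map π = U₁.map π from le_antisymm
            (Subgroup.map_le_iff_le_comap.2 inf_le_left) fun y hy => by
              obtain ⟨h, hh, rfl⟩ := hU₁H hy
              exact ⟨h, ⟨hy, hh⟩, rfl⟩]
      have hNM' : Nat.card (N.subgroupOf M) = p ^ m := by
        rw [Nat.card_congr (Subgroup.subgroupOfEquivOfLe hNM).toEquiv, hm]
      have hcompl : ∀ V : Subgroup G, V ≤ M → Nat.card V = Nat.card U →
          IsComplement' (V.subgroupOf M) (N.subgroupOf M) := fun V hVM hV => by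
        refine isComplement'_of_coprime ?_ ?_ <;>
          rw [Nat.card_congr (Subgroup.subgroupOfEquivOfLe hVM).toEquiv, hV, hNM']
        · rw [hM, mul_comm]
        · exact Nat.Coprime.of_dvd_left hU (hcopow hpa).symm
      have h₁ := hcompl U₁ (U₁.le_comap_map π) hU₁
      have h₂ := hcompl (M ⊓ H) inf_le_left hMH
      haveI : IsMulCommutative (N.subgroupOf M) :=
        ⟨⟨fun x y => Subtype.ext (Subtype.ext (show x.1.1 * y.1.1 = y.1.1 * x.1.1 from
          congrArg Subtype.val (hNc.is_comm.comm (⟨x.1.1, x.2⟩ : N) ⟨y.1.1, y.2⟩)))⟩⟩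
      obtain ⟨x, -, hx⟩ := exists_conj_complement h₁ h₂ (by
        rw [h₁.index_eq_card, hNM',
          Nat.card_congr (Subgroup.subgroupOfEquivOfLe (U₁.le_comap_map π)).toEquiv, hU₁]
        exact (Nat.Coprime.of_dvd_left hU (hcopow hpa).symm).symm)
      refine ⟨x.1 * g, fun y hy => ?_⟩
      obtain ⟨u, hu, rfl⟩ := hy
      have hg : MulAut.conj g u ∈ U₁ := ⟨u, hu, rfl⟩
      have h3 : MulAut.conj x (⟨MulAut.conj g u, U₁.le_comap_map π hg⟩ : M) ∈
          (M ⊓ H).subgroupOf M := hx ▸ ⟨_, hg, rfl⟩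
      rw [MulEquiv.coe_toMonoidHom, map_mul, MulAut.mul_apply]
      exact h3.2

/-- **Hall's theorem**: a subgroup of order `a` exists. -/
theorem exists_hall [Finite G] [Group.IsSolvable G] {a b : ℕ} (h : a * b = Nat.card G)
    (hco : a.Coprime b) : ∃ H : Subgroup G, Nat.card H = a :=
  (hall_aux _ G rfl a b h hco).1

/-- **Hall's theorem**: it contains a conjugate of each subgroup of order dividing `a`. -/
theorem exists_conj_le_hall [Finite G] [Group.IsSolvable G] {a b : ℕ} (h : a * b = Nat.card G)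
    (hco : a.Coprime b) {H U : Subgroup G} (hH : Nat.card H = a) (hU : Nat.card U ∣ a) :
    ∃ g : G, U.map (MulAut.conj g).toMonoidHom ≤ H :=
  (hall_aux _ G rfl a b h hco).2 H U hH hU

/-- **Hall's theorem**: they are conjugate. -/
theorem exists_conj_eq_hall [Finite G] [Group.IsSolvable G] {a b : ℕ} (h : a * b = Nat.card G)
    (hco : a.Coprime b) {H H' : Subgroup G} (hH : Nat.card H = a) (hH' : Nat.card H' = a) :
    ∃ g : G, H'.map (MulAut.conj g).toMonoidHom = H := by
  obtain ⟨g, hg⟩ := exists_conj_le_hall h hco hH hH'.dvd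
  exact ⟨g, Subgroup.eq_of_le_of_card_ge hg
    (by rw [Subgroup.card_map_of_injective (MulAut.conj g).injective, hH, hH'])⟩

end FA.HallSubgroups

end
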