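import Fermat.Agent.HallSubgroups.Criterion
import Mathlib.FieldTheory.Galois.Basic

/-!
# Hall's theorems for Galois extensions

Under the Galois correspondence the degree of an intermediate field is the index of its group, so a
Galois group is solvable iff each `p`-part of the degree is the degree of an intermediate field, and
then each coprime factor of the degree is, for a field unique up to conjugation.
-/

set_option autoImplicit false
set_option linter.style.haveILetI false

noncomputable section

namespace FA.HallSubgroups

open scoped Pointwise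

variable (K L : Type*) [Field K] [Field L] [Algebra K L] [FiniteDimensional K L] [IsGalois K L]

theorem isSolvable_iff_intermediateField :
    Group.IsSolvable (L ≃ₐ[K] L) ↔ ∀ p : ℕ, p.Prime → ∃ F : IntermediateField K L,
      Module.finrank K F = p ^ (Module.finrank K L).factorization p := by
  rw [isSolvable_iff_forall_exists, IsGalois.card_aut_eq_finrank]
  refine forall_congr' fun p => forall_congr' fun _ => ⟨fun ⟨H, hH⟩ =>
    ⟨IntermediateField.fixedField H, ?_⟩, fun ⟨F, hF⟩ => ⟨F.fixingSubgroup, ?_⟩⟩
  · rw [IntermediateField.finrank_eq_fixingSubgroup_index,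
      IntermediateField.fixingSubgroup_fixedField, hH]
  · rw [← IntermediateField.finrank_eq_fixingSubgroup_index, hF]

variable {K L}

theorem card_fixingSubgroup_eq {a b : ℕ} (h : a * b = Module.finrank K L) (ha : a ≠ 0)
    {F : IntermediateField K L} (hF : Module.finrank K F = a) :
    Nat.card F.fixingSubgroup = b := by
  have h1 := F.fixingSubgroup.card_mul_index
  rw [← IntermediateField.finrank_eq_fixingSubgroup_index, hF, IsGalois.card_aut_eq_finrank, ← h,
    mul_comm a b] at h1
  exact Nat.eq_of_mul_eq_mul_right (Nat.pos_of_ne_zero ha) h1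

/-- The field of degree `a`, unique up to conjugation. -/
theorem exists_intermediateField [Group.IsSolvable (L ≃ₐ[K] L)] {a b : ℕ}
    (h : a * b = Module.finrank K L) (hco : a.Coprime b) :
    (∃ F : IntermediateField K L, Module.finrank K F = a) ∧
      ∀ F F' : IntermediateField K L, Module.finrank K F = a → Module.finrank K F' = a →
        ∃ σ : L ≃ₐ[K] L, F.map σ.toAlgHom = F' := by
  have hn : 0 < Module.finrank K L := Module.finrank_pos
  have ha : a ≠ 0 := by rintro rfl; rw [zero_mul] at h; omega
  have hb : b ≠ 0 := by rintro rfl; rw [mul_zero] at h; omega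
  have hcard : b * a = Nat.card (L ≃ₐ[K] L) := by rw [IsGalois.card_aut_eq_finrank, ← h, mul_comm]
  constructor
  · obtain ⟨H, hH⟩ := exists_hall hcard hco.symm
    refine ⟨IntermediateField.fixedField H, ?_⟩
    rw [IntermediateField.finrank_eq_fixingSubgroup_index,
      IntermediateField.fixingSubgroup_fixedField]
    have h1 := H.card_mul_index
    rw [hH, ← hcard] at h1
    exact Nat.eq_of_mul_eq_mul_left (Nat.pos_of_ne_zero hb) h1
  · intro F F' hF hF'
    obtain ⟨σ, hσ⟩ := exists_conj_eq_hall hcard hco.symm (card_fixingSubgroup_eq h ha hF')
      (card_fixingSubgroup_eq h ha hF)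
    refine ⟨σ, ?_⟩
    rw [← IsGalois.fixedField_fixingSubgroup F', ← hσ,
      ← IsGalois.fixedField_fixingSubgroup (F.map σ.toAlgHom), IsGalois.map_fixingSubgroup]
    rfl

end FA.HallSubgroups

end
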